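/-
P-MW (S17), BLOCK C, row 797 LPF-COORD, part 1 (helper44).

Pure algebra and finset combinatorics for `coord_of_places`:
* clusters of indices with a common centre (`clus`, `clusN`, `clusEmb`, `clusIdx`),
* the factorisation `E = newtonMatrix * S` from cluster-wise Newton expansions (`newton_factor`),
* a right inverse modulo the maximal ideal from a surjective reduction (`rightInv_of_surj`),
* the one-centre Newton expansion from K9 + NEWTON (`local_newton`) and the separation of
  points (`local_sep`), with the valuation subring `V` hidden behind ring homomorphisms `O → 𝒦`.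
-/
import Fermat.Agent.H89.MW.LpfInterfaces

set_option autoImplicit false

noncomputable section

open Module TensorProduct

namespace Fermat.Agent.H44.MW

open Fermat.Agent.H92.MW Fermat.Agent.H89.MW

/-! ### Clusters -/

section cluster

variable {Cen : Type} {d : ℕ} (c : Fin d → Cen)

/-- the cluster of a centre `x`: the indices `a` with `c a = x` -/
def clus (x : Cen) : Finset (Fin d) :=
  open Classical in Finset.univ.filter (fun a => c a = x)

lemma mem_clus {x : Cen} {a : Fin d} : a ∈ clus c x ↔ c a = x := by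
  classical
  unfold clus
  rw [Finset.mem_filter]
  exact ⟨fun h => h.2, fun h => ⟨Finset.mem_univ _, h⟩⟩

/-- the size of the cluster of `x` -/
def clusN (x : Cen) : ℕ := (clus c x).card

/-- the increasing enumeration of the cluster of `x` -/
def clusEmb (x : Cen) : Fin (clusN c x) ↪o Fin d := (clus c x).orderEmbOfFin rfl

lemma clusEmb_cen (x : Cen) (i : Fin (clusN c x)) : c (clusEmb c x i) = x :=
  (mem_clus c).1 (Finset.orderEmbOfFin_mem (clus c x) rfl i)

lemma exists_clusEmb {x : Cen} {a : Fin d} (h : c a = x) : ∃ i, clusEmb c x i = a := by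
  have hmem : a ∈ (clus c x : Set (Fin d)) := (mem_clus c).2 h
  rw [← Finset.range_orderEmbOfFin (clus c x) rfl] at hmem
  exact hmem

/-- the index of a point in its cluster -/
def clusIdx (a : Fin d) : Fin (clusN c (c a)) :=
  ((clus c (c a)).orderIsoOfFin rfl).symm ⟨a, (mem_clus c).2 rfl⟩

lemma clusEmb_idx (a : Fin d) : clusEmb c (c a) (clusIdx c a) = a := by
  show (((clus c (c a)).orderIsoOfFin rfl
    (((clus c (c a)).orderIsoOfFin rfl).symm ⟨a, (mem_clus c).2 rfl⟩) : clus c (c a)) : Fin d) = a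
  rw [OrderIso.apply_symm_apply]

/-- evaluation of a cluster-indexed family at the cluster coordinates of `clusEmb c x i` -/
lemma clus_dep {β : Sort*} (s : ∀ x : Cen, Fin (clusN c x) → β) (x : Cen)
    (i : Fin (clusN c x)) :
    s (c (clusEmb c x i)) (clusIdx c (clusEmb c x i)) = s x i := by
  have key : ∀ (x y : Cen) (_ : y = x) (i : Fin (clusN c x)) (k : Fin (clusN c y)),
      clusEmb c y k = clusEmb c x i → s y k = s x i := by
    rintro x y rfl i k hk
    rw [(clusEmb c y).injective hk]
  exact key x _ (clusEmb_cen c x i) i _ (clusEmb_idx c _)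

lemma sum_clus {M : Type*} [AddCommMonoid M] (x : Cen) (F : Fin d → M) :
    ∑ b ∈ clus c x, F b = ∑ i : Fin (clusN c x), F (clusEmb c x i) := by
  conv_lhs => rw [← Finset.map_orderEmbOfFin_univ (clus c x) rfl]
  rw [Finset.sum_map]
  rfl

lemma sum_clusN (s : Finset Cen) (hs : ∀ a, c a ∈ s) : ∑ x ∈ s, clusN c x = d := by
  classical
  have h := Finset.card_eq_sum_card_fiberwise (f := c) (s := Finset.univ) (t := s)
    (fun a _ => hs a)
  rw [Finset.card_univ, Fintype.card_fin] at h
  refine Eq.trans ?_ h.symm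
  refine Finset.sum_congr rfl fun x _ => ?_
  unfold clusN clus
  congr 1

end cluster

/-! ### The Newton factorisation -/

section newton

variable {𝒦 : Type} [Field 𝒦] {Cen : Type} {d : ℕ} (c : Fin d → Cen) (z ν : Fin d → 𝒦)

lemma newtonMatrix_of_ne {a b : Fin d} (h : c a ≠ c b) : newtonMatrix c z ν a b = 0 := by
  classical
  unfold newtonMatrix
  rw [if_neg h]

/-- the entries of the Newton matrix in cluster coordinates -/
lemma newtonMatrix_clusEmb (a : Fin d) (i : Fin (clusN c (c a))) :
    newtonMatrix c z ν a (clusEmb c (c a) i)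
      = ν a * ∏ i' ∈ Finset.univ.filter (fun i' : Fin (clusN c (c a)) => i' < i),
          (z a - z (clusEmb c (c a) i')) := by
  classical
  unfold newtonMatrix
  rw [if_pos (clusEmb_cen c (c a) i).symm]
  congr 1
  have hset : Finset.univ.filter
      (fun b' : Fin d => b' < clusEmb c (c a) i ∧ c b' = c (clusEmb c (c a) i))
      = (Finset.univ.filter (fun i' : Fin (clusN c (c a)) => i' < i)).map
          (clusEmb c (c a)).toEmbedding := by
    ext b'
    simp only [Finset.mem_filter, Finset.mem_univ, true_and, Finset.mem_map,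
      RelEmbedding.coe_toEmbedding]
    constructor
    · rintro ⟨hlt, hcb⟩
      rw [clusEmb_cen c] at hcb
      obtain ⟨i', rfl⟩ := exists_clusEmb c hcb
      exact ⟨i', (clusEmb c (c a)).lt_iff_lt.1 hlt, rfl⟩
    · rintro ⟨i', hi', rfl⟩
      exact ⟨(clusEmb c (c a)).lt_iff_lt.2 hi', by rw [clusEmb_cen c, clusEmb_cen c]⟩
  have hprod := congrArg (fun s : Finset (Fin d) => ∏ b' ∈ s, (z a - z b')) hset
  simp only [Finset.prod_map, RelEmbedding.coe_toEmbedding] at hprod
  convert hprod using 2

/-- **Newton factorisation.**  If the normalised values `G a j` have cluster-wise Newton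
expansions with coefficients `s x j i`, then `(ν a * G a j) = newtonMatrix * S` with
`S b j = s (c b) j (clusIdx c b)`. -/
theorem newton_factor {N : ℕ} (G : Matrix (Fin d) (Fin N) 𝒦)
    (s : ∀ x : Cen, Fin N → Fin (clusN c x) → 𝒦)
    (hs : ∀ (a : Fin d) (j : Fin N), G a j = ∑ i : Fin (clusN c (c a)), s (c a) j i *
      ∏ i' ∈ Finset.univ.filter (fun i' : Fin (clusN c (c a)) => i' < i),
        (z a - z (clusEmb c (c a) i'))) :
    (Matrix.of fun a j => ν a * G a j)
      = newtonMatrix c z ν * Matrix.of (fun b j => s (c b) j (clusIdx c b)) := by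
  classical
  ext a j
  rw [Matrix.mul_apply]
  simp only [Matrix.of_apply]
  have h1 : ∑ b : Fin d, newtonMatrix c z ν a b * s (c b) j (clusIdx c b)
      = ∑ b ∈ clus c (c a), newtonMatrix c z ν a b * s (c b) j (clusIdx c b) := by
    symm
    refine Finset.sum_subset (Finset.subset_univ _) fun b _ hb => ?_
    have hne : c a ≠ c b := fun h => hb ((mem_clus c).2 h.symm)
    rw [newtonMatrix_of_ne c z ν hne, zero_mul]
  rw [h1, sum_clus, hs a j, Finset.mul_sum]
  refine Finset.sum_congr rfl fun i _ => ?_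
  rw [newtonMatrix_clusEmb, clus_dep c (fun x k => s x j k) (c a) i]
  ring

end newton

/-! ### Right inverse modulo the maximal ideal -/

section rightInv

variable {𝒦 : Type} [Field 𝒦] (V : ValuationSubring 𝒦)

/-- If `S` is congruent modulo the maximal ideal of `V` to the image of a surjective matrix over
a field `k ⊆ V`, then `S` has a right inverse modulo the maximal ideal. -/
theorem rightInv_of_surj {k : Type} [Field k] (ι : k →+* 𝒦) (hι : ∀ a, ι a ∈ V) {d N : ℕ}
    (Cmat : Matrix (Fin d) (Fin N) k) (hC : Function.Surjective Cmat.mulVec)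
    (S : Matrix (Fin d) (Fin N) 𝒦) (hS : ∀ a j, V.valuation (S a j - ι (Cmat a j)) < 1) :
    ∃ T : Matrix (Fin N) (Fin d) 𝒦, (∀ j a, T j a ∈ V) ∧
      ∀ a b, V.valuation ((S * T - (1 : Matrix (Fin d) (Fin d) 𝒦)) a b) < 1 := by
  classical
  obtain ⟨Tbar, hT⟩ := Matrix.mulVec_surjective_iff_exists_right_inverse.1 hC
  refine ⟨Matrix.of fun j a => ι (Tbar j a), fun j a => hι _, fun a b => ?_⟩
  have h1 : ∑ j : Fin N, ι (Cmat a j) * ι (Tbar j b) = (1 : Matrix (Fin d) (Fin d) 𝒦) a b := by
    have h2 := congrArg (fun M : Matrix (Fin d) (Fin d) k => ι (M a b)) hT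
    simp only [Matrix.mul_apply, map_sum, map_mul] at h2
    rw [h2, Matrix.one_apply, Matrix.one_apply]
    split_ifs <;> simp
  have h3 : (S * (Matrix.of fun j a => ι (Tbar j a)) - (1 : Matrix (Fin d) (Fin d) 𝒦)) a b
      = ∑ j : Fin N, (S a j - ι (Cmat a j)) * ι (Tbar j b) := by
    rw [Matrix.sub_apply, Matrix.mul_apply, ← h1, ← Finset.sum_sub_distrib]
    simp only [Matrix.of_apply]
    refine Finset.sum_congr rfl fun j _ => ?_
    ring
  rw [h3]
  refine Valuation.map_sum_lt _ one_ne_zero fun j _ => ?_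
  rw [map_mul]
  calc V.valuation (S a j - ι (Cmat a j)) * V.valuation (ι (Tbar j b))
      ≤ V.valuation (S a j - ι (Cmat a j)) * 1 :=
        mul_le_mul_right ((V.valuation_le_one_iff _).2 (hι _)) _
    _ < 1 := by rw [mul_one]; exact hS a j

end rightInv

/-! ### One centre: K9 + NEWTON and separation -/

section oneCentre

variable {𝒦 : Type} [Field 𝒦] (V : ValuationSubring 𝒦) (ι : QQbar →+* 𝒦)
  (O : Type) [CommRing O] [IsDomain O] [IsDiscreteValuationRing O] [Algebra QQbar O]

/-- **One centre.**  K9 and NEWTON give integral Newton coefficients for the values of `h ∈ O`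
at finitely many points `φ i : O → V` with distinct coordinates, congruent to the Taylor
coefficients of `h`. -/
theorem local_newton (hK9 : InterpolationStatement) (hNewton : NewtonConvStatement)
    (hι : ∀ a, ι a ∈ V) (u : O) (hu : Irreducible u)
    (hres : ∀ h : O, ∃ a : QQbar, h - algebraMap QQbar O a ∈ IsLocalRing.maximalIdeal O)
    (heft : ∃ S : Finset O, ∀ h : O, ∃ p q : O, p ∈ Algebra.adjoin QQbar (S : Set O) ∧
      q ∈ Algebra.adjoin QQbar (S : Set O) ∧ IsUnit q ∧ h * q = p)
    (n : ℕ) (φ : Fin n → (O →+* 𝒦))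
    (h1 : ∀ i h, φ i h ∈ V) (h2 : ∀ i a, φ i (algebraMap QQbar O a) = ι a)
    (h3 : ∀ i, V.valuation (φ i u) < 1)
    (hinj : Function.Injective (fun i => φ i u))
    (h : O) (cT : Fin n → QQbar)
    (hT : h - ∑ i : Fin n, algebraMap QQbar O (cT i) * u ^ (i : ℕ) ∈ Ideal.span {u ^ n}) :
    ∃ s : Fin n → 𝒦, (∀ i, s i ∈ V) ∧ (∀ i, V.valuation (s i - ι (cT i)) < 1) ∧
      ∀ i₀, φ i₀ h = ∑ i : Fin n, s i *
        ∏ i' ∈ Finset.univ.filter (fun i' : Fin n => i' < i), (φ i₀ u - φ i' u) := by
  letI algV : Algebra QQbar V := (ι.codRestrict V hι).toAlgebra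
  have halg : ∀ a : QQbar, ((algebraMap QQbar V a : V) : 𝒦) = ι a := fun a => rfl
  let Pt : Fin n → (O →ₐ[QQbar] V) := fun i =>
    { toRingHom := (φ i).codRestrict V (h1 i)
      commutes' := fun a => Subtype.ext (h2 i a) }
  have hPt : ∀ i x, ((Pt i x : V) : 𝒦) = φ i x := fun i x => rfl
  have hPtu : ∀ i, Pt i u ∈ IsLocalRing.maximalIdeal V := fun i =>
    (V.valuation_lt_one_iff _).2 (h3 i)
  have hPinj : Function.Injective (fun i => Pt i u) := fun i i' hii' =>
    hinj (congrArg Subtype.val hii')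
  obtain ⟨r, hr1, hr2⟩ := hK9 QQbar O V u n Pt hu hres heft hPtu hPinj h cT hT
  obtain ⟨s, hs1, hs2⟩ := hNewton V (IsLocalRing.maximalIdeal V) n (fun i => Pt i u) r hPtu
  refine ⟨fun i => (s i : 𝒦), fun i => (s i).2, fun i => ?_, fun i₀ => ?_⟩
  · have e1 := (V.valuation_lt_one_iff _).1 (hs1 i)
    have e2 := (V.valuation_lt_one_iff _).1 (hr2 i)
    have e3 : (s i : 𝒦) - ι (cT i)
        = ((s i - r i : V) : 𝒦) + ((r i - algebraMap QQbar V (cT i) : V) : 𝒦) := by
      push_cast
      rw [halg]
      ring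
    rw [e3]
    exact Valuation.map_add_lt _ e1 e2
  · have e := congrArg (Subtype.val : V → 𝒦) ((hr1 i₀).trans (hs2 (Pt i₀ u)))
    rw [hPt] at e
    rw [e]
    push_cast
    rfl

/-- **Separation.**  Two points `O → V` over `ℚ̄` with the same coordinate in the maximal ideal
are equal. -/
theorem local_sep (hSep : SeparationStatement)
    (hι : ∀ a, ι a ∈ V) (u : O) (hu : Irreducible u)
    (hres : ∀ h : O, ∃ a : QQbar, h - algebraMap QQbar O a ∈ IsLocalRing.maximalIdeal O)
    (heft : ∃ S : Finset O, ∀ h : O, ∃ p q : O, p ∈ Algebra.adjoin QQbar (S : Set O) ∧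
      q ∈ Algebra.adjoin QQbar (S : Set O) ∧ IsUnit q ∧ h * q = p)
    (φ φ' : O →+* 𝒦)
    (h1 : ∀ h, φ h ∈ V) (h1' : ∀ h, φ' h ∈ V)
    (h2 : ∀ a, φ (algebraMap QQbar O a) = ι a) (h2' : ∀ a, φ' (algebraMap QQbar O a) = ι a)
    (h3 : V.valuation (φ u) < 1) (heq : φ u = φ' u) : φ = φ' := by
  letI algV : Algebra QQbar V := (ι.codRestrict V hι).toAlgebra
  let Pt : O →ₐ[QQbar] V :=
    { toRingHom := φ.codRestrict V h1
      commutes' := fun a => Subtype.ext (h2 a) }
  let Pt' : O →ₐ[QQbar] V :=
    { toRingHom := φ'.codRestrict V h1'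
      commutes' := fun a => Subtype.ext (h2' a) }
  have hPtu : Pt u ∈ IsLocalRing.maximalIdeal V := (V.valuation_lt_one_iff _).2 h3
  have hPP : Pt u = Pt' u := Subtype.ext heq
  have key := hSep QQbar O V u Pt Pt' hu hres heft hPtu hPP
  ext x
  exact congrArg (fun f : O →ₐ[QQbar] V => ((f x : V) : 𝒦)) key

end oneCentre

end Fermat.Agent.H44.MW

end
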