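/-
P-MW (S17), BLOCK C, row 797 LPF-COORD, part 2 (helper44).

`coord_of_places`: the coordinate statement `CoordStatement 𝒞` from a place system with centres,
K9 (integral interpolation), SEP, NEWTON and TAYLOR.
-/
import Fermat.Agent.H44.MW.CoordAlg

set_option autoImplicit false

noncomputable section

open Module TensorProduct

namespace Fermat.Agent.H44.MW

open Fermat.Agent.H92.MW Fermat.Agent.H89.MW

variable {R : Type} [CommRing R] [Algebra ℚ R] [IsDedekindDomain R]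

/-- every element of `WBar m` is a `ℚ̄`-combination of the `toWBar f_j`, `f_j` the basis of
`W m` -/
lemma exists_coef_toWBar (𝒞 : MWDatum R) (m : ℕ) (f : WBar 𝒞 m) :
    ∃ x : Fin (finrank ℚ (𝒞.W m)) → QQbar,
      f = ∑ j, x j • toWBar 𝒞 m (Module.finBasis ℚ (𝒞.W m) j) := by
  obtain ⟨t, rfl⟩ := Submodule.toBaseChange_surjective QQbar (𝒞.W m) f
  let B := (Module.finBasis ℚ (𝒞.W m)).baseChange QQbar
  refine ⟨fun j => B.repr t j, ?_⟩
  conv_lhs => rw [← B.sum_repr t]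
  rw [map_sum]
  refine Finset.sum_congr rfl fun j _ => ?_
  rw [map_smul]
  congr 1
  apply Subtype.ext
  rw [Basis.baseChange_apply]
  rfl

/-- **[LPF-COORD]** The coordinate statement from a place system with centres, integral
interpolation (K9), separation, Newton conversion and Taylor coefficients. -/
theorem coord_of_places (𝒞 : MWDatum R) (hK9 : InterpolationStatement)
    (hSep : SeparationStatement) (hNewton : NewtonConvStatement) (hTaylor : TaylorStatement)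
    (𝔖 : PlaceSystem 𝒞) (hCen : CentreStatement 𝒞 𝔖) : CoordStatement 𝒞 := by
  classical
  intro 𝒦 _ _ _ V hV
  -- the embedding of `ℚ̄`
  haveI : Algebra.IsAlgebraic ℚ QQbar := AlgebraicClosure.isAlgebraic ℚ
  let ι : QQbar →ₐ[ℚ] 𝒦 := IsAlgClosed.lift
  have hι : ∀ a, (ι : QQbar →+* 𝒦) a ∈ V := fun a =>
    hV.1 _ (IsAlgebraic.algHom ι (Algebra.IsAlgebraic.isAlgebraic (R := ℚ) a))
  obtain ⟨cen, loc, hloc⟩ := hCen 𝒦 V hV ι
  -- the clauses of `hCen`, transported along `cen P = x`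
  have hloc' : ∀ (x : 𝔖.Pl) (P : R →ₐ[ℚ] 𝒦), cen P = x →
      (∀ h, loc x P h ∈ V) ∧
      (∀ a : QQbar, loc x P (algebraMap QQbar (𝔖.O x) a) = (ι : QQbar →+* 𝒦) a) ∧
      V.valuation (loc x P (𝔖.u x)) < 1 ∧
      V.valuation (loc x P (𝔖.u x)) ^ (𝔖.ε x * 𝒞.e) * max 1 (V.valuation (P 𝒞.t)) = 1 ∧
      ∀ (m : ℕ) (f : 𝒞.W m), loc x P (𝔖.germ x m (toWBar 𝒞 m f))
        = P (f : R) * loc x P (𝔖.u x) ^ (𝔖.ε x * m) := by
    rintro _ P rfl
    exact hloc P
  -- the coordinate does not vanish where it is used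
  have hZ : ∀ (x : 𝔖.Pl) (P : R →ₐ[ℚ] 𝒦), cen P = x → ∀ k : ℕ,
      loc x P (𝔖.u x) ^ (𝔖.ε x * k) ≠ 0 := by
    intro x P hx k
    by_cases hε : 𝔖.ε x = 0
    · rw [hε, zero_mul, pow_zero]
      exact one_ne_zero
    · refine pow_ne_zero _ fun h0 => ?_
      have h4 := (hloc' x P hx).2.2.2.1
      rw [h0, map_zero, zero_pow (Nat.mul_ne_zero hε 𝒞.e_pos.ne'), zero_mul] at h4
      exact zero_ne_one h4
  refine ⟨𝔖.Pl, cen, fun P => loc (cen P) P (𝔖.u (cen P)),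
    fun P => (loc (cen P) P (𝔖.u (cen P)))⁻¹ ^ 𝔖.ε (cen P), fun P => ?_, ?_⟩
  · have h4 := (hloc P).2.2.2.1
    rw [map_pow, map_inv₀, ← pow_mul, inv_pow]
    exact (eq_inv_of_mul_eq_one_right h4).symm
  intro m d hmd P hP
  -- centres, clusters, points of a cluster
  set c : Fin d → 𝔖.Pl := fun a => cen (P a) with hc
  have hcx : ∀ (x : 𝔖.Pl) (i : Fin (clusN c x)), cen (P (clusEmb c x i)) = x :=
    fun x i => clusEmb_cen c x i
  set φ : ∀ x : 𝔖.Pl, Fin (clusN c x) → (𝔖.O x →+* 𝒦) :=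
    fun x i => loc x (P (clusEmb c x i)) with hφ
  -- distinct nodes
  have hinj : ∀ x : 𝔖.Pl, Function.Injective (fun i => φ x i (𝔖.u x)) := by
    intro x i i' hii'
    have hii : φ x i (𝔖.u x) = φ x i' (𝔖.u x) := hii'
    have hA := hloc' x _ (hcx x i)
    have hA' := hloc' x _ (hcx x i')
    have hφφ : φ x i = φ x i' :=
      local_sep V (ι : QQbar →+* 𝒦) (𝔖.O x) hSep hι (𝔖.u x) (𝔖.u_irr x) (𝔖.res x) (𝔖.eft x)
        (φ x i) (φ x i') hA.1 hA'.1 hA.2.1 hA'.2.1 hA.2.2.1 hii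
    have hPP : P (clusEmb c x i) = P (clusEmb c x i') := by
      apply AlgHom.ext
      intro f
      obtain ⟨m', hf⟩ := 𝒞.W_exhaust f
      have e1 := hA.2.2.2.2 m' ⟨f, hf⟩
      have e2 := hA'.2.2.2.2 m' ⟨f, hf⟩
      have e3 : φ x i (𝔖.germ x m' (toWBar 𝒞 m' ⟨f, hf⟩))
          = φ x i' (𝔖.germ x m' (toWBar 𝒞 m' ⟨f, hf⟩)) := by rw [hφφ]
      have e4 : P (clusEmb c x i) f * loc x (P (clusEmb c x i)) (𝔖.u x) ^ (𝔖.ε x * m')
          = P (clusEmb c x i') f * loc x (P (clusEmb c x i)) (𝔖.u x) ^ (𝔖.ε x * m') := by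
        have e5 : loc x (P (clusEmb c x i')) (𝔖.u x) = loc x (P (clusEmb c x i)) (𝔖.u x) :=
          hii.symm
        rw [← e1, ← e5, ← e2]
        exact e3
      exact mul_right_cancel₀ (hZ x _ (hcx x i) m') e4
    exact (clusEmb c x).injective (hP hPP)
  -- Taylor coefficients
  choose τ hτ1 hτ2 using fun x : 𝔖.Pl =>
    hTaylor QQbar (𝔖.O x) (𝔖.u x) (𝔖.u_irr x) (𝔖.res x) (clusN c x)
  -- Newton coefficients
  choose s hs1 hs2 hs3 using fun (x : 𝔖.Pl) (j : Fin (finrank ℚ (𝒞.W m))) =>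
    local_newton V (ι : QQbar →+* 𝒦) (𝔖.O x) hK9 hNewton hι (𝔖.u x) (𝔖.u_irr x) (𝔖.res x)
      (𝔖.eft x) (clusN c x) (φ x) (fun i => (hloc' x _ (hcx x i)).1)
      (fun i => (hloc' x _ (hcx x i)).2.1) (fun i => (hloc' x _ (hcx x i)).2.2.1) (hinj x)
      (𝔖.germ x m (toWBar 𝒞 m (Module.finBasis ℚ (𝒞.W m) j)))
      (τ x (𝔖.germ x m (toWBar 𝒞 m (Module.finBasis ℚ (𝒞.W m) j)))) (hτ1 x _)
  -- the matrices
  set Smat : Matrix (Fin d) (Fin (finrank ℚ (𝒞.W m))) 𝒦 :=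
    Matrix.of fun b j => s (c b) j (clusIdx c b) with hSmat
  set Cmat : Matrix (Fin d) (Fin (finrank ℚ (𝒞.W m))) QQbar :=
    Matrix.of fun b j =>
      τ (c b) (𝔖.germ (c b) m (toWBar 𝒞 m (Module.finBasis ℚ (𝒞.W m) j))) (clusIdx c b)
    with hCmat
  -- surjectivity of the Taylor matrix
  have hCsurj : Function.Surjective Cmat.mulVec := by
    intro y
    have hsum : (∑ x ∈ Finset.univ.image c, clusN c x) + 𝒞.m₀ ≤ m := by
      rw [sum_clusN c _ (fun a => Finset.mem_image_of_mem _ (Finset.mem_univ _))]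
      exact hmd
    obtain ⟨f, hf⟩ := 𝔖.jets m (Finset.univ.image c) (clusN c) hsum
      (fun x i => y (clusEmb c x i))
    obtain ⟨coef, hcoef⟩ := exists_coef_toWBar 𝒞 m f
    refine ⟨coef, ?_⟩
    ext b
    have hb : c b ∈ Finset.univ.image c := Finset.mem_image_of_mem _ (Finset.mem_univ _)
    have h1 := hτ2 (c b) (𝔖.germ (c b) m f) (fun i => y (clusEmb c (c b) i)) (hf (c b) hb)
    have h2 := congrFun h1 (clusIdx c b)
    simp only [clusEmb_idx] at h2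
    rw [h2, hcoef, map_sum, map_sum, Finset.sum_apply]
    simp only [Matrix.mulVec, dotProduct, hCmat, Matrix.of_apply, map_smul, Pi.smul_apply,
      smul_eq_mul]
    exact Finset.sum_congr rfl fun j _ => mul_comm _ _
  have hScong : ∀ a j, V.valuation (Smat a j - (ι : QQbar →+* 𝒦) (Cmat a j)) < 1 :=
    fun a j => hs2 (c a) j (clusIdx c a)
  obtain ⟨T, hT1, hT2⟩ := rightInv_of_surj V (ι : QQbar →+* 𝒦) hι Cmat hCsurj Smat hScong
  refine ⟨Smat, T, fun a j => hs1 (c a) j (clusIdx c a), hT1, hT2, ?_⟩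
  -- the factorisation
  have hz : ∀ (x : 𝔖.Pl) (Q : R →ₐ[ℚ] 𝒦), cen Q = x →
      loc (cen Q) Q (𝔖.u (cen Q)) = loc x Q (𝔖.u x) := by
    rintro _ Q rfl
    rfl
  have hs : ∀ (a : Fin d) (j : Fin (finrank ℚ (𝒞.W m))),
      (Matrix.of fun a j => loc (c a) (P a)
          (𝔖.germ (c a) m (toWBar 𝒞 m (Module.finBasis ℚ (𝒞.W m) j))) :
          Matrix (Fin d) (Fin (finrank ℚ (𝒞.W m))) 𝒦) a j
        = ∑ i : Fin (clusN c (c a)), s (c a) j i *
          ∏ i' ∈ Finset.univ.filter (fun i' : Fin (clusN c (c a)) => i' < i),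
            ((fun a => loc (cen (P a)) (P a) (𝔖.u (cen (P a)))) a
              - (fun a => loc (cen (P a)) (P a) (𝔖.u (cen (P a)))) (clusEmb c (c a) i')) := by
    intro a j
    have h3 := hs3 (c a) j (clusIdx c a)
    simp only [hφ, clusEmb_idx] at h3
    rw [Matrix.of_apply, h3]
    refine Finset.sum_congr rfl fun i _ => ?_
    congr 1
    refine Finset.prod_congr rfl fun i' _ => ?_
    show loc (c a) (P a) (𝔖.u (c a)) - loc (c a) (P (clusEmb c (c a) i')) (𝔖.u (c a))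
      = loc (cen (P a)) (P a) (𝔖.u (cen (P a)))
        - loc (cen (P (clusEmb c (c a) i'))) (P (clusEmb c (c a) i'))
            (𝔖.u (cen (P (clusEmb c (c a) i'))))
    rw [hz (c a) (P (clusEmb c (c a) i')) (hcx (c a) i')]
  rw [← newton_factor c (fun a => loc (cen (P a)) (P a) (𝔖.u (cen (P a))))
    (fun a => ((loc (cen (P a)) (P a) (𝔖.u (cen (P a))))⁻¹ ^ 𝔖.ε (cen (P a))) ^ m) _ s hs]
  ext a j
  have h5 := (hloc (P a)).2.2.2.2 m (Module.finBasis ℚ (𝒞.W m) j)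
  have h0 := hZ (cen (P a)) (P a) rfl m
  rw [Matrix.of_apply, Matrix.of_apply]
  show P a ((Module.finBasis ℚ (𝒞.W m) j : 𝒞.W m) : R)
    = ((loc (cen (P a)) (P a) (𝔖.u (cen (P a))))⁻¹ ^ 𝔖.ε (cen (P a))) ^ m
      * loc (cen (P a)) (P a)
          (𝔖.germ (cen (P a)) m (toWBar 𝒞 m (Module.finBasis ℚ (𝒞.W m) j)))
  rw [h5, ← pow_mul, inv_pow, mul_comm, mul_assoc, mul_inv_cancel₀ h0, mul_one]

end Fermat.Agent.H44.MW

end
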